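/-
P-S16, row UB-TRSQ (helper7): the trace of `H²` to level one,
`p H² + U_p((U_p H)²) = a₀(H)² (p + 1) E₄` as power series, for `H ∈ M₂(Γ₀(p))`.

Route: `K := U_p H ∈ M₂(Γ₀(p))` (prelude `heckeULin`), the Fricke trace (helper17) of `K²` is a
level-one form of weight 4, pointwise equal to `p (U_p K)² + U_p(K²)`; level-one forms of weight 4
are multiples of `E₄`.
-/
import Mathlib
import Fermat.Agent.H6.S16UB.Interfaces
import Fermat.Agent.H17.S16Trace
import Fermat.Prelude.Def_ModularForm_HeckeOperatorForms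
import Fermat.Prelude.Thm_UpperHalfPlane_qCoeff_heckeU
import Fermat.Prelude.Thm_CongruenceSubgroup_one_mem_strictPeriods_Gamma0
import Fermat.Prelude.Thm_ModularForm_mdifferentiable_heckeU
import Fermat.Prelude.Thm_ModularForm_isBoundedAtImInfty_heckeU
import Fermat.Prelude.Thm_ModularForm_periodic_heckeU_comp_ofComplex

set_option autoImplicit false

namespace Fermat.Agent.H7.S16

open UpperHalfPlane CongruenceSubgroup ModularForm
open scoped MatrixGroups ModularForm Real Manifold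

/-- A function on the upper half plane with a convergent `q`-expansion: `1`-periodic, holomorphic
and bounded at `i∞`. -/
structure Nice (f : ℍ → ℂ) : Prop where
  per : Function.Periodic (f ∘ UpperHalfPlane.ofComplex) 1
  hol : MDiff f
  bdd : IsBoundedAtImInfty f

theorem Nice.analyticAt {f : ℍ → ℂ} (hf : Nice f) : AnalyticAt ℂ (cuspFunction 1 f) 0 :=
  analyticAt_cuspFunction_zero one_pos hf.per hf.hol hf.bdd

theorem nice_of_form {p : ℕ} [NeZero p] {k : ℤ} (H : ModularForm (Gamma0 p) k) : Nice (⇑H) where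
  per := SlashInvariantFormClass.periodic_comp_ofComplex H
    (CongruenceSubgroup.one_mem_strictPeriods_Gamma0 p)
  hol := ModularFormClass.holo H
  bdd := by simpa using ModularFormClass.bdd_at_infty_slash H (1 : SL(2, ℤ))

theorem Nice.heckeU {f : ℍ → ℂ} (hf : Nice f) (k : ℤ) (p : ℕ) : Nice (ModularForm.heckeU k p f) where
  per := ModularForm.periodic_heckeU_comp_ofComplex hf.per k p
  hol := ModularForm.mdifferentiable_heckeU hf.hol k p
  bdd := ModularForm.isBoundedAtImInfty_heckeU hf.bdd k p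

theorem Nice.mul {f g : ℍ → ℂ} (hf : Nice f) (hg : Nice g) : Nice (f * g) where
  per := by
    intro x
    have h1 := hf.per x
    have h2 := hg.per x
    simp only [Function.comp_apply, Pi.mul_apply] at h1 h2 ⊢
    rw [h1, h2]
  hol := hf.hol.mul hg.hol
  bdd := hf.bdd.mul hg.bdd

theorem Nice.smul {f : ℍ → ℂ} (hf : Nice f) (c : ℂ) : Nice (c • f) where
  per := by
    intro x
    have h1 := hf.per x
    simp only [Function.comp_apply, Pi.smul_apply] at h1 ⊢
    rw [h1]
  hol := hf.hol.const_smul c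
  bdd := hf.bdd.const_smul_left c

/-- the `q`-expansion of `U_p f` is `upSeries p` of the `q`-expansion of `f` -/
theorem qExpansion_heckeU {f : ℍ → ℂ} (hf : Nice f) (k : ℤ) {p : ℕ} (hp : p ≠ 0) :
    qExpansion 1 (ModularForm.heckeU k p f) =
      Fermat.Agent.H6.S16UB.upSeries p (qExpansion 1 f) := by
  ext n
  have h := UpperHalfPlane.qCoeff_heckeU hf.per hf.hol hf.bdd k hp n
  rw [ModularForm.coeffHeckeU_apply] at h
  simp only [ModularFormClass.qCoeff] at h
  rw [h, Fermat.Agent.H6.S16UB.upSeries, PowerSeries.coeff_mk, mul_comm]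

/-- `U_p` does not depend on the weight. -/
theorem heckeU_weight (k k' : ℤ) {p : ℕ} (hp : p ≠ 0) (f : ℍ → ℂ) :
    ModularForm.heckeU k p f = ModularForm.heckeU k' p f := by
  ext τ
  rw [ModularForm.heckeU_apply k hp, ModularForm.heckeU_apply k' hp]

section Trace

variable {p : ℕ} [Fact p.Prime]

/-- pointwise formula for the Fricke trace of `K²`, `K ∈ M₂(Γ₀(p))` -/
theorem frickeTrace_sq (K : ModularForm (Gamma0 p) 2) (τ : ℍ) :
    Fermat.Agent.H17.frickeTrace 4 p (⇑K * ⇑K) τ =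
      (p : ℂ) * (ModularForm.heckeU 2 p ⇑K τ) ^ 2 + ModularForm.heckeU 2 p (⇑K * ⇑K) τ := by
  have hp : p ≠ 0 := (Fact.out : p.Prime).ne_zero
  have hp' : (p : ℂ) ≠ 0 := by exact_mod_cast hp
  have h1 := Fermat.Agent.H17.slash_S_heckeDiag_eq K τ
  rw [← ModularForm.heckeU_apply 2 hp] at h1
  have h2 : ((⇑K * ⇑K) ∣[(4 : ℤ)] ((ModularGroup.S : SL(2, ℤ)) : GL (Fin 2) ℝ)) =
      ((⇑K) ∣[(2 : ℤ)] ModularGroup.S) * ((⇑K) ∣[(2 : ℤ)] ModularGroup.S) := by
    have := ModularForm.mul_slash_SL2 2 2 ModularGroup.S (⇑K) (⇑K)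
    rw [show (2 : ℤ) + 2 = 4 by norm_num] at this
    exact this
  rw [Fermat.Agent.H17.frickeTrace, Pi.add_apply, ModularForm.slash_heckeDiagMatrix_apply 4 hp,
    h2, Pi.mul_apply, heckeU_weight 4 2 hp]
  have h3 : (p : ℂ) ^ ((4 : ℤ) - 1) = (p : ℂ) ^ 3 := by norm_num
  rw [h3]
  linear_combination (norm := skip) (p : ℂ) * ((p : ℂ) * ((⇑K) ∣[(2 : ℤ)] ModularGroup.S)
    (ModularForm.heckeDiagMatrix p • τ) - ModularForm.heckeU 2 p ⇑K τ) * h1
  ring

/-- the `q`-expansion of `E₄` -/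
theorem qExpansion_E4 :
    qExpansion 1 (⇑(E₄ : ModularForm 𝒮ℒ 4)) =
      1 + 240 * (Fermat.Agent.H6.S16UB.sigmaSeries 3).map (Int.castRingHom ℂ) := by
  ext m
  have h := EisensteinSeries.E_qExpansion_coeff (k := 4) (by norm_num) ⟨2, rfl⟩ m
  rw [h]
  have hb : bernoulli 4 = -1 / 30 := by decide +kernel
  have h240 : (240 : PowerSeries ℂ) = PowerSeries.C (240 : ℂ) := by
    rw [map_ofNat]
  rw [map_add, h240, PowerSeries.coeff_C_mul, PowerSeries.coeff_map,
    Fermat.Agent.H6.S16UB.sigmaSeries, PowerSeries.coeff_mk, PowerSeries.coeff_one]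
  by_cases hm : m = 0
  · simp [hm]
  · simp only [hm, if_false, zero_add, eq_intCast, Int.cast_natCast]
    rw [hb]
    norm_num

/-- the `q`-expansion of a level-one form of weight 4 -/
theorem qExpansion_levelOne_four (F : ModularForm 𝒮ℒ 4) :
    qExpansion 1 (⇑F) = PowerSeries.C (PowerSeries.coeff 0 (qExpansion 1 (⇑F))) *
      (1 + 240 * (Fermat.Agent.H6.S16UB.sigmaSeries 3).map (Int.castRingHom ℂ)) := by
  obtain ⟨c, hc⟩ : ∃ c : ℂ, c • E₄ = F :=
    (finrank_eq_one_iff_of_nonzero' E₄ (EisensteinSeries.E_ne_zero _ ⟨2, rfl⟩)).mp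
      (Module.rank_eq_one_iff_finrank_eq_one.mp ModularForm.levelOne_weight_four_rank_one) _
  have hq : qExpansion 1 (⇑F) = c • qExpansion 1 (⇑(E₄ : ModularForm 𝒮ℒ 4)) := by
    rw [← ModularForm.qExpansion_smul one_pos one_mem_strictPeriods_SL c E₄,
      show (c • E₄ : ℍ → ℂ) = ⇑F from congrArg DFunLike.coe hc]
  have h0 : PowerSeries.coeff 0 (qExpansion 1 (⇑F)) = c := by
    rw [hq, PowerSeries.coeff_smul, EisensteinSeries.E_qExpansion_coeff_zero (by norm_num) ⟨2, rfl⟩,
      smul_eq_mul, mul_one]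
  rw [h0, hq, qExpansion_E4, PowerSeries.smul_eq_C_mul]

/-- the trace of `K²` to level one, as a modular form of weight 4 -/
noncomputable def traceSqForm (K : ModularForm (Gamma0 p) 2) : ModularForm 𝒮ℒ 4 :=
  Fermat.Agent.H17.frickeTraceForm (K.mul K)

theorem coe_traceSqForm (K : ModularForm (Gamma0 p) 2) :
    ⇑(traceSqForm K) = (p : ℂ) • (ModularForm.heckeU 2 p ⇑K * ModularForm.heckeU 2 p ⇑K)
      + ModularForm.heckeU 2 p (⇑K * ⇑K) := by
  ext τ
  have h := frickeTrace_sq K τ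
  rw [Pi.add_apply, Pi.smul_apply, Pi.mul_apply, smul_eq_mul, ← pow_two, ← h]
  rfl

/-- the `q`-expansion of the trace of `K²` -/
theorem qExpansion_traceSqForm (K : ModularForm (Gamma0 p) 2) :
    qExpansion 1 (⇑(traceSqForm K)) =
      (p : PowerSeries ℂ) * Fermat.Agent.H6.S16UB.upSeries p (qExpansion 1 (⇑K)) ^ 2
        + Fermat.Agent.H6.S16UB.upSeries p (qExpansion 1 (⇑K) ^ 2) := by
  have hp : p ≠ 0 := (Fact.out : p.Prime).ne_zero
  have : NeZero p := ⟨hp⟩
  have hK : Nice (⇑K) := nice_of_form K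
  have hUK : Nice (ModularForm.heckeU 2 p ⇑K) := hK.heckeU 2 p
  have hKK : Nice (⇑K * ⇑K) := hK.mul hK
  have hUKK : Nice (ModularForm.heckeU 2 p (⇑K * ⇑K)) := hKK.heckeU 2 p
  have hUU : Nice (ModularForm.heckeU 2 p ⇑K * ModularForm.heckeU 2 p ⇑K) := hUK.mul hUK
  rw [coe_traceSqForm, qExpansion_add (hUU.smul _).analyticAt hUKK.analyticAt,
    qExpansion_smul hUU.analyticAt, qExpansion_mul hUK.analyticAt hUK.analyticAt,
    qExpansion_heckeU hK 2 hp, qExpansion_heckeU hKK 2 hp,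
    qExpansion_mul hK.analyticAt hK.analyticAt, PowerSeries.smul_eq_C_mul, ← pow_two, ← pow_two,
    map_natCast]

/-- **UB-TRSQ** from `U_p² = 1`. -/
theorem traceSq_of_upSq (hU : Fermat.Agent.H6.S16UB.UpSqStatement) :
    Fermat.Agent.H6.S16UB.TraceSqStatement := by
  intro p hp H
  have : Fact p.Prime := ⟨hp⟩
  have hp0 : p ≠ 0 := hp.ne_zero
  have : NeZero p := ⟨hp0⟩
  set h := qExpansion 1 (⇑H) with hh
  -- `K = U_p H` as a form on `Γ₀(p)`
  set K : ModularForm (Gamma0 p) 2 := ModularForm.heckeULin 2 (dvd_refl p) H with hK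
  have hqK : qExpansion 1 (⇑K) = Fermat.Agent.H6.S16UB.upSeries p h := by
    rw [hK, ModularForm.coe_heckeULin_apply, qExpansion_heckeU (nice_of_form H) 2 hp0]
  have hUU : Fermat.Agent.H6.S16UB.upSeries p (Fermat.Agent.H6.S16UB.upSeries p h) = h := by
    ext n
    rw [Fermat.Agent.H6.S16UB.upSeries, PowerSeries.coeff_mk, Fermat.Agent.H6.S16UB.upSeries,
      PowerSeries.coeff_mk]
    exact hU p hp H n
  have hq := qExpansion_traceSqForm K
  rw [hqK, hUU] at hq
  have hlev := qExpansion_levelOne_four (traceSqForm K)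
  have h0 : PowerSeries.coeff 0 (qExpansion 1 (⇑(traceSqForm K))) =
      (PowerSeries.coeff 0 h) ^ 2 * (p + 1) := by
    rw [hq, map_add, Fermat.Agent.H6.S16UB.upSeries, PowerSeries.coeff_mk, mul_zero]
    have e1 : PowerSeries.coeff 0 ((p : PowerSeries ℂ) * h ^ 2) =
        (p : ℂ) * (PowerSeries.coeff 0 h) ^ 2 := by
      rw [← map_natCast (PowerSeries.C (R := ℂ)) p, PowerSeries.coeff_C_mul,
        PowerSeries.coeff_zero_eq_constantCoeff, map_pow]
    have e2 : PowerSeries.coeff 0 (Fermat.Agent.H6.S16UB.upSeries p h ^ 2) =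
        (PowerSeries.coeff 0 h) ^ 2 := by
      rw [PowerSeries.coeff_zero_eq_constantCoeff, map_pow,
        ← PowerSeries.coeff_zero_eq_constantCoeff, Fermat.Agent.H6.S16UB.upSeries,
        PowerSeries.coeff_mk, mul_zero]
    rw [e1, e2]
    ring
  rw [← hq, hlev, h0]

end Trace

end Fermat.Agent.H7.S16
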