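/-
P-S16, row UB-TRSQ (helper7): unconditional `TraceSqStatement`
(`traceSq_of_upSq` applied to helper17's `upSqStatement`).
-/
import Fermat.Agent.H7.S16.TraceSq
import Fermat.Agent.H17.S16Up

set_option autoImplicit false

namespace Fermat.Agent.H7.S16

/-- **UB-TRSQ**: `p H² + U_p((U_p H)²) = a₀(H)² (p + 1) E₄` for `H ∈ M₂(Γ₀(p))`. -/
theorem traceSq : Fermat.Agent.H6.S16UB.TraceSqStatement :=
  traceSq_of_upSq Fermat.Agent.H17.upSqStatement

end Fermat.Agent.H7.S16
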